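import Fermat.Agent.S54_helper86.KeyLemma
import Fermat.Prelude.Def_EllipticCurve_FrobeniusTrace

set_option autoImplicit false

namespace Fermat.Agent.S54_helper86

open Polynomial
open scoped Pointwise

abbrev Qb : Type := AlgebraicClosure ℚ
abbrev GQ : Type := Qb ≃ₐ[ℚ] Qb

theorem algebra_rat_Qb_eq :
    (DivisionRing.toRatAlgebra : Algebra ℚ Qb) = AlgebraicClosure.instAlgebra ℚ :=
  Subsingleton.elim _ _

instance isAlgebraic_Qb : Algebra.IsAlgebraic ℚ Qb := by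
  rw [algebra_rat_Qb_eq]; infer_instance

instance isAlgClosure_Qb : IsAlgClosure ℚ Qb := ⟨inferInstance, inferInstance⟩

instance isGalois_Qb : IsGalois ℚ Qb := inferInstance

/-- The subring of algebraic integers. -/
noncomputable abbrev Zb : Subring Qb := (integralClosure ℤ Qb).toSubring

theorem mem_Zb {x : Qb} : x ∈ Zb ↔ IsIntegral ℤ x := Iff.rfl

instance isInvariantSubring_Zb : IsInvariantSubring GQ Zb where
  smul_mem σ x hx := by
    rw [mem_Zb] at hx ⊢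
    exact map_isIntegral_int (σ : Qb →+* Qb) hx


theorem smul_Zb_coe (σ : GQ) (b : Zb) : ((σ • b : Zb) : Qb) = σ (b : Qb) := rfl

theorem isAlgebraic_int (x : Qb) : IsAlgebraic ℤ x :=
  (IsFractionRing.isAlgebraic_iff ℤ ℚ Qb).mpr (Algebra.IsAlgebraic.isAlgebraic x)

theorem mem_range_algebraMap_of_fixed {x : Qb} (hx : ∀ σ : GQ, σ x = x) :
    ∃ q : ℚ, algebraMap ℚ Qb q = x := by
  have h1 : x ∈ IntermediateField.fixedField
      (⊥ : IntermediateField ℚ Qb).fixingSubgroup := by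
    rintro ⟨σ, -⟩
    exact hx σ
  rw [InfiniteGalois.fixedField_fixingSubgroup] at h1
  exact IntermediateField.mem_bot.mp h1

instance isInvariant_Zb : Algebra.IsInvariant ℤ Zb GQ where
  isInvariant b hb := by
    obtain ⟨q, hq⟩ := mem_range_algebraMap_of_fixed (x := (b : Qb))
      (fun σ => congrArg Subtype.val (hb σ))
    have hint : IsIntegral ℤ q := by
      have : IsIntegral ℤ (algebraMap ℚ Qb q) := hq ▸ b.2
      exact (isIntegral_algebraMap_iff (algebraMap ℚ Qb).injective).mp this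
    obtain ⟨a, ha⟩ := IsIntegrallyClosed.isIntegral_iff.mp hint
    refine ⟨a, Subtype.ext ?_⟩
    rw [← hq, ← ha]
    simp

theorem stabilizer_Zb_isOpen (b : Zb) : IsOpen (MulAction.stabilizer GQ b : Set GQ) := by
  have h : (MulAction.stabilizer GQ b : Set GQ) = (MulAction.stabilizer GQ (b : Qb) : Set GQ) := by
    ext σ
    simp only [SetLike.mem_coe, MulAction.mem_stabilizer_iff]
    exact Subtype.ext_iff
  rw [h]
  exact stabilizer_isOpen_of_isIntegral _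

theorem not_isUnit_natCast_Zb {ℓ : ℕ} (hℓ : ℓ.Prime) : ¬ IsUnit (ℓ : Zb) := by
  rintro ⟨u, hu⟩
  have h1 : (ℓ : Zb) * ((u⁻¹ : Zbˣ) : Zb) = 1 := by rw [← hu]; exact u.mul_inv
  have h2 : (ℓ : Qb) * (((u⁻¹ : Zbˣ) : Zb) : Qb) = 1 := by
    have := congrArg (Subtype.val : Zb → Qb) h1
    simpa using this
  have hℓ0 : (ℓ : Qb) ≠ 0 := by exact_mod_cast hℓ.ne_zero
  have h3 : (((u⁻¹ : Zbˣ) : Zb) : Qb) = algebraMap ℚ Qb ((ℓ : ℚ)⁻¹) := by
    rw [map_inv₀, map_natCast]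
    field_simp
    linear_combination h2
  have hint : IsIntegral ℤ (algebraMap ℚ Qb ((ℓ : ℚ)⁻¹)) := h3 ▸ ((u⁻¹ : Zbˣ) : Zb).2
  have hintQ : IsIntegral ℤ ((ℓ : ℚ)⁻¹) :=
    (isIntegral_algebraMap_iff (algebraMap ℚ Qb).injective).mp hint
  obtain ⟨m, hm⟩ := IsIntegrallyClosed.isIntegral_iff.mp hintQ
  rw [eq_intCast] at hm
  have hpQ : (ℓ : ℚ) ≠ 0 := by exact_mod_cast hℓ.ne_zero
  have hmul : ((ℓ * m : ℤ) : ℚ) = ((1 : ℤ) : ℚ) := by
    push_cast; rw [hm]; field_simp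
  have hdvd : (ℓ : ℤ) ∣ 1 := ⟨m, (Int.cast_injective hmul).symm⟩
  have hple : (ℓ : ℤ) ≤ 1 := Int.le_of_dvd one_pos hdvd
  have := hℓ.two_le; omega

/-- A valuation subring of `Qb` containing the algebraic integers with `ℓ` a nonunit. -/
theorem exists_valuationSubring_over {ℓ : ℕ} (hℓ : ℓ.Prime) :
    ∃ A : ValuationSubring Qb, Zb ≤ A.toSubring ∧ (ℓ : Qb) ∈ A.nonunits := by
  have hI : Ideal.span {(ℓ : Zb)} ≠ ⊤ := fun h =>
    not_isUnit_natCast_Zb hℓ (Ideal.span_singleton_eq_top.mp h)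
  obtain ⟨A, hA1, hA2⟩ := Ideal.image_subset_nonunits_valuationSubring _ hI
  refine ⟨A, hA1, hA2 ⟨(ℓ : Zb), Ideal.subset_span rfl, ?_⟩⟩
  simp

/-- The prime of `Zb` cut out by a valuation subring containing it. -/
noncomputable def primeOf (A : ValuationSubring Qb) (hA : Zb ≤ A.toSubring) : Ideal Zb where
  carrier := {b | (b : Qb) ∈ A.nonunits}
  add_mem' {a b} ha hb := by
    change ((a + b : Zb) : Qb) ∈ A.nonunits
    rw [Subring.coe_add]
    exact add_mem ha hb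
  zero_mem' := by
    change ((0 : Zb) : Qb) ∈ A.nonunits
    rw [Subring.coe_zero]
    exact zero_mem A.nonunits
  smul_mem' c b hb := by
    change ((c * b : Zb) : Qb) ∈ A.nonunits
    rw [Subring.coe_mul]
    exact mul_mem_nonunits A (hA c.2) hb

theorem mem_primeOf {A : ValuationSubring Qb} {hA : Zb ≤ A.toSubring} {b : Zb} :
    b ∈ primeOf A hA ↔ (b : Qb) ∈ A.nonunits := Iff.rfl

instance primeOf_isPrime (A : ValuationSubring Qb) (hA : Zb ≤ A.toSubring) :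
    (primeOf A hA).IsPrime where
  ne_top' := by
    rw [Ne, Ideal.eq_top_iff_one, mem_primeOf, Subring.coe_one]
    exact one_notMem_nonunits A
  mem_or_mem' := by
    intro a b hab
    by_contra h
    rw [not_or] at h
    simp only [mem_primeOf, ValuationSubring.mem_nonunits_iff, not_lt] at h hab
    have ha : A.valuation (a : Qb) = 1 := le_antisymm ((A.valuation_le_one_iff _).2 (hA a.2)) h.1
    have hb : A.valuation (b : Qb) = 1 := le_antisymm ((A.valuation_le_one_iff _).2 (hA b.2)) h.2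
    have : A.valuation ((a * b : Zb) : Qb) = 1 := by
      push_cast
      rw [map_mul, ha, hb, one_mul]
    rw [this] at hab
    exact lt_irrefl _ hab

section Frob

variable (A : ValuationSubring Qb) (hA : Zb ≤ A.toSubring) {ℓ : ℕ} (hℓ : ℓ.Prime)
  (hℓA : (ℓ : Qb) ∈ A.nonunits)

include hℓ hℓA in
theorem charP_quot : CharP (Zb ⧸ primeOf A hA) ℓ := by
  haveI : Nontrivial (Zb ⧸ primeOf A hA) :=
    Ideal.Quotient.nontrivial_iff.mpr (primeOf_isPrime A hA).ne_top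
  rw [CharP.charP_iff_prime_eq_zero hℓ]
  have h : ((ℓ : Zb ⧸ primeOf A hA)) = Ideal.Quotient.mk _ (ℓ : Zb) := by simp
  rw [h, Ideal.Quotient.eq_zero_iff_mem, mem_primeOf]
  simpa using hℓA

theorem exists_pow_eq_Zb {n : ℕ} (hn : 0 < n) (b : Zb) : ∃ c : Zb, c ^ n = b := by
  obtain ⟨c, hc⟩ := IsAlgClosed.exists_pow_nat_eq (b : Qb) hn
  have hcint : IsIntegral ℤ c := IsIntegral.of_pow hn (hc ▸ b.2)
  exact ⟨⟨c, hcint⟩, Subtype.ext hc⟩

/-- The Frobenius automorphism of the residue field `Zb ⧸ Q`. -/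
noncomputable def frobAlgEquiv :
    (Zb ⧸ primeOf A hA) ≃ₐ[ℤ ⧸ (primeOf A hA).under ℤ] (Zb ⧸ primeOf A hA) :=
  haveI := charP_quot A hA hℓ hℓA
  haveI : Fact ℓ.Prime := ⟨hℓ⟩
  AlgEquiv.ofBijective
    { toRingHom := frobenius (Zb ⧸ primeOf A hA) ℓ
      commutes' := by
        intro c
        obtain ⟨n, rfl⟩ := Ideal.Quotient.mk_surjective c
        rw [Ideal.Quotient.algebraMap_mk_of_liesOver]
        simp only [RingHom.toMonoidHom_eq_coe, OneHom.toFun_eq_coe, MonoidHom.toOneHom_coe,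
          MonoidHom.coe_coe, algebraMap_int_eq, eq_intCast, map_intCast] }
    ⟨frobenius_inj _ ℓ, by
      intro y
      obtain ⟨b, rfl⟩ := Ideal.Quotient.mk_surjective y
      obtain ⟨c, hc⟩ := exists_pow_eq_Zb hℓ.pos b
      refine ⟨Ideal.Quotient.mk _ c, ?_⟩
      change frobenius _ ℓ (Ideal.Quotient.mk _ c) = _
      rw [frobenius_def, ← map_pow, hc]⟩

theorem frobAlgEquiv_mk (b : Zb) :
    frobAlgEquiv A hA hℓ hℓA (Ideal.Quotient.mk _ b) = Ideal.Quotient.mk _ (b ^ ℓ) := by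
  haveI := charP_quot A hA hℓ hℓA
  haveI : Fact ℓ.Prime := ⟨hℓ⟩
  change frobenius _ ℓ (Ideal.Quotient.mk _ b) = _
  rw [frobenius_def, ← map_pow]

include hℓ hℓA in
theorem exists_frob_Zb : ∃ σ : GQ, σ • primeOf A hA = primeOf A hA ∧
    ∀ b : Zb, σ • b - b ^ ℓ ∈ primeOf A hA := by
  letI : TopologicalSpace Zb := ⊥
  haveI : DiscreteTopology Zb := ⟨rfl⟩
  haveI : ContinuousSMul GQ Zb :=
    continuousSMul_iff_stabilizer_isOpen.mpr stabilizer_Zb_isOpen
  obtain ⟨⟨σ, hσ⟩, h⟩ := Ideal.Quotient.stabilizerHom_surjective_of_profinite (G := GQ)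
    ((primeOf A hA).under ℤ) (primeOf A hA) (frobAlgEquiv A hA hℓ hℓA)
  refine ⟨σ, hσ, fun b => ?_⟩
  have h1 := DFunLike.congr_fun h (Ideal.Quotient.mk _ b)
  rw [Ideal.Quotient.stabilizerHom_apply, frobAlgEquiv_mk] at h1
  exact Ideal.Quotient.eq.mp h1

end Frob

section Decomp

variable (A : ValuationSubring Qb) (hA : Zb ≤ A.toSubring) {ℓ : ℕ} (hℓ : ℓ.Prime)
  (hℓA : (ℓ : Qb) ∈ A.nonunits)

theorem valuation_eq_one_of_mem_of_notMem_nonunits {x : Qb} (hx : x ∈ A)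
    (hx' : x ∉ A.nonunits) : A.valuation x = 1 :=
  le_antisymm ((A.valuation_le_one_iff x).2 hx)
    (not_lt.mp fun h => hx' (A.mem_nonunits_iff.mpr h))

theorem smul_mem_primeOf_iff {σ : GQ} (hσ : σ • primeOf A hA = primeOf A hA) (b : Zb) :
    σ • b ∈ primeOf A hA ↔ b ∈ primeOf A hA := by
  conv_lhs => rw [← hσ]
  exact Ideal.smul_mem_pointwise_smul_iff

include hℓ hℓA in
/-- An automorphism stabilising the prime `Q = Zb ∩ 𝔪_A` maps `A` into `A`. -/
theorem apply_mem_of_stabilizer {σ : GQ} (hσ : σ • primeOf A hA = primeOf A hA) {x : Qb}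
    (hx : x ∈ A) : σ x ∈ A := by
  obtain ⟨s, hs, hs', hxs⟩ := exists_mul_mem_of_mem_valuationSubring Zb A hℓ hℓA hx
    (isAlgebraic_int x)
  have h1 : σ s ∉ A.nonunits := fun h =>
    hs' ((smul_mem_primeOf_iff A hA hσ ⟨s, hs⟩).mp h)
  have h2 : σ s ∈ A := hA (isInvariantSubring_Zb.smul_mem σ hs)
  have h3 : σ (x * s) ∈ A := hA (isInvariantSubring_Zb.smul_mem σ hxs)
  have h4 := valuation_eq_one_of_mem_of_notMem_nonunits A h2 h1
  rw [← A.valuation_le_one_iff] at h3 ⊢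
  rwa [map_mul, map_mul, h4, mul_one] at h3

include hℓ hℓA in
theorem smul_eq_of_stabilizer {σ : GQ} (hσ : σ • primeOf A hA = primeOf A hA) : σ • A = A := by
  have hσ' : σ⁻¹ • primeOf A hA = primeOf A hA := by
    conv_lhs => rw [← hσ]
    rw [inv_smul_smul]
  apply le_antisymm
  · intro x hx
    obtain ⟨a, ha, rfl⟩ := (ValuationSubring.mem_smul_pointwise_iff_exists σ x A).mp hx
    exact apply_mem_of_stabilizer A hA hℓ hℓA hσ ha
  · intro x hx
    rw [ValuationSubring.mem_pointwise_smul_iff_inv_smul_mem]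
    exact apply_mem_of_stabilizer A hA hℓ hℓA hσ' hx

include hℓ hℓA in
theorem frob_sub_pow_mem_nonunits {σ : GQ} (hσ : σ • primeOf A hA = primeOf A hA)
    (hfrob : ∀ b : Zb, σ • b - b ^ ℓ ∈ primeOf A hA) {x : Qb} (hx : x ∈ A) :
    σ x - x ^ ℓ ∈ A.nonunits := by
  obtain ⟨s, hs, hs', hxs⟩ := exists_mul_mem_of_mem_valuationSubring Zb A hℓ hℓA hx
    (isAlgebraic_int x)
  have h1 : σ s ∉ A.nonunits := fun h =>
    hs' ((smul_mem_primeOf_iff A hA hσ ⟨s, hs⟩).mp h)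
  have h2 : σ s ∈ A := hA (isInvariantSubring_Zb.smul_mem σ hs)
  have h4 := valuation_eq_one_of_mem_of_notMem_nonunits A h2 h1
  have h5 := valuation_eq_one_of_mem_of_notMem_nonunits A (hA hs) hs'
  have e1 : σ (x * s) - (x * s) ^ ℓ ∈ A.nonunits := hfrob ⟨x * s, hxs⟩
  have e2 : σ s - s ^ ℓ ∈ A.nonunits := hfrob ⟨s, hs⟩
  have key : (σ x - x ^ ℓ) * (σ s * s ^ ℓ) =
      (σ (x * s) - (x * s) ^ ℓ) * s ^ ℓ - (x * s) ^ ℓ * (σ s - s ^ ℓ) := by
    rw [map_mul]; ring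
  have h6 : (σ x - x ^ ℓ) * (σ s * s ^ ℓ) ∈ A.nonunits := by
    rw [key]
    refine sub_mem ?_ ?_
    · rw [mul_comm]
      exact mul_mem_nonunits A (pow_mem (hA hs) ℓ) e1
    · exact mul_mem_nonunits A (pow_mem (hA hxs) ℓ) e2
  rw [ValuationSubring.mem_nonunits_iff] at h6 ⊢
  rwa [map_mul, map_mul, map_pow, h4, h5, one_pow, mul_one, mul_one] at h6

end Decomp

/-- Existence of Frobenius elements: for every prime `ℓ` there is a place of `Qb` over `ℓ` and a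
Frobenius element at that place. -/
theorem exists_isFrobeniusAt {ℓ : ℕ} (hℓ : ℓ.Prime) :
    ∃ (A : ValuationSubring (AlgebraicClosure ℚ))
      (σ : AlgebraicClosure ℚ ≃ₐ[ℚ] AlgebraicClosure ℚ),
      A.LiesOverPrime ℓ ∧ A.IsFrobeniusAt σ ℓ := by
  obtain ⟨A, hA, hℓA⟩ := exists_valuationSubring_over hℓ
  obtain ⟨σ, hσ, hfrob⟩ := exists_frob_Zb A hA hℓ hℓA
  refine ⟨A, σ, hℓA, smul_eq_of_stabilizer A hA hℓ hℓA hσ, ?_⟩
  intro x
  obtain ⟨a, rfl⟩ := IsLocalRing.residue_surjective x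
  rw [← IsLocalRing.ResidueField.residue_smul, ← map_pow, ← sub_eq_zero, ← map_sub,
    IsLocalRing.residue_eq_zero_iff, ← ValuationSubring.coe_mem_nonunits_iff]
  exact frob_sub_pow_mem_nonunits A hA hℓ hℓA hσ hfrob a.2

end Fermat.Agent.S54_helper86
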