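import Mathlib

set_option autoImplicit false

namespace Fermat.Agent.S54_helper86

open Polynomial

variable {K : Type*} [Field K]

theorem aeval_int_mem {S : Type*} [SetLike S K] [SubringClass S K] (V : S) {x : K} (hx : x ∈ V)
    (g : ℤ[X]) : aeval x g ∈ V := by
  rw [aeval_eq_sum_range]
  exact sum_mem fun i _ => zsmul_mem (pow_mem hx i) _

theorem aeval_divX (x : K) (g : ℤ[X]) :
    aeval x g = aeval x (divX g) * x + (g.coeff 0 : K) := by
  conv_lhs => rw [← divX_mul_X_add g]
  simp

theorem coeff_divX_iterate (f : ℤ[X]) (j i : ℕ) : (divX^[j] f).coeff i = f.coeff (i + j) := by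
  induction j generalizing i with
  | zero => simp
  | succ j ih =>
    rw [Function.iterate_succ_apply', coeff_divX, ih]
    congr 1
    omega

/-- For a valuation subring `V` and a root `x` of `f`, all the "upper parts" of `f` at `x`
lie in `V`. -/
theorem aeval_divX_iterate_mem_valuationSubring (V : ValuationSubring K) (f : ℤ[X]) (x : K)
    (hx : aeval x f = 0) (j : ℕ) : aeval x (divX^[j] f) ∈ V := by
  rcases V.mem_or_inv_mem x with h | h
  · exact aeval_int_mem V h _
  · by_cases hx0 : x = 0
    · subst hx0
      exact aeval_int_mem V V.zero_mem _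
    induction j with
    | zero => simp [hx]
    | succ j ih =>
      rw [Function.iterate_succ_apply']
      have h1 := aeval_divX x (divX^[j] f)
      have h2 : aeval x (divX (divX^[j] f)) =
          (aeval x (divX^[j] f) - ((divX^[j] f).coeff 0 : K)) * x⁻¹ := by
        rw [h1]
        field_simp
        ring
      rw [h2]
      exact V.mul_mem _ _ (sub_mem ih (intCast_mem V _)) h

theorem mul_aeval_divX_iterate_mem_valuationSubring (V : ValuationSubring K) (f : ℤ[X]) (x : K)
    (hx : aeval x f = 0) (j : ℕ) : x * aeval x (divX^[j] f) ∈ V := by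
  rcases V.mem_or_inv_mem x with h | h
  · exact V.mul_mem _ _ h (aeval_int_mem V h _)
  · cases j with
    | zero => simp [hx]
    | succ j =>
      rw [Function.iterate_succ_apply']
      have h1 := aeval_divX x (divX^[j] f)
      have h2 : x * aeval x (divX (divX^[j] f)) =
          aeval x (divX^[j] f) - ((divX^[j] f).coeff 0 : K) := by
        rw [h1]; ring
      rw [h2]
      exact sub_mem (aeval_divX_iterate_mem_valuationSubring V f x hx j) (intCast_mem V _)

/-- If `R` is integrally closed in `K` and `x` is a root of `f ∈ ℤ[X]`, the upper parts of `f`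
at `x` lie in `R`. -/
theorem aeval_divX_iterate_mem (R : Subring K) [IsIntegrallyClosedIn R K] (f : ℤ[X]) (x : K)
    (hx : aeval x f = 0) (j : ℕ) : aeval x (divX^[j] f) ∈ R := by
  by_contra h
  obtain ⟨V, -, hV⟩ := Subring.exists_le_valuationSubring_of_isIntegrallyClosedIn h
  exact hV (aeval_divX_iterate_mem_valuationSubring V f x hx j)

theorem mul_aeval_divX_iterate_mem (R : Subring K) [IsIntegrallyClosedIn R K] (f : ℤ[X]) (x : K)
    (hx : aeval x f = 0) (j : ℕ) : x * aeval x (divX^[j] f) ∈ R := by
  by_contra h
  obtain ⟨V, -, hV⟩ := Subring.exists_le_valuationSubring_of_isIntegrallyClosedIn h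
  exact hV (mul_aeval_divX_iterate_mem_valuationSubring V f x hx j)

end Fermat.Agent.S54_helper86
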