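import Fermat.Agent.S54_helper86.Integral

set_option autoImplicit false

namespace Fermat.Agent.S54_helper86

open Polynomial

variable {K : Type*} [Field K]

theorem exists_isPrimitive_aeval_eq_zero [CharZero K] {x : K} (hx : IsAlgebraic ℤ x) :
    ∃ f : ℤ[X], f.IsPrimitive ∧ aeval x f = 0 := by
  obtain ⟨p, hp0, hp⟩ := hx
  exact ⟨p.primPart, isPrimitive_primPart p, aeval_primPart_eq_zero hp0 hp⟩

theorem exists_not_dvd_coeff {f : ℤ[X]} (hf : f.IsPrimitive) {ℓ : ℕ} (hℓ : ℓ.Prime) :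
    ∃ i, ¬ (ℓ : ℤ) ∣ f.coeff i := by
  by_contra h
  have h' : ∀ i, (ℓ : ℤ) ∣ f.coeff i := fun i => not_not.mp fun hi => h ⟨i, hi⟩
  have h1 : C (ℓ : ℤ) ∣ f := (C_dvd_iff_dvd_coeff _ _).mpr h'
  have h2 := hf _ h1
  rw [Int.isUnit_iff] at h2
  have := hℓ.two_le
  omega

theorem mul_mem_nonunits (A : ValuationSubring K) {a b : K} (ha : a ∈ A) (hb : b ∈ A.nonunits) :
    a * b ∈ A.nonunits := by
  rw [ValuationSubring.mem_nonunits_iff] at *
  rw [map_mul]
  exact mul_lt_one_of_nonneg_of_lt_one_right ((A.valuation_le_one_iff a).2 ha) zero_le hb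

theorem one_notMem_nonunits (A : ValuationSubring K) : (1 : K) ∉ A.nonunits := by
  rw [ValuationSubring.mem_nonunits_iff, map_one]
  exact lt_irrefl _

theorem intCast_notMem_nonunits (A : ValuationSubring K) {ℓ : ℕ} (hℓ : ℓ.Prime)
    (hℓA : (ℓ : K) ∈ A.nonunits) {a : ℤ} (ha : ¬ (ℓ : ℤ) ∣ a) : (a : K) ∉ A.nonunits := by
  intro h
  have hcop : IsCoprime a (ℓ : ℤ) := by
    rw [Int.isCoprime_iff_gcd_eq_one]
    have := (Nat.Prime.coprime_iff_not_dvd hℓ).mpr (fun hd => ha (Int.natCast_dvd.mpr hd))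
    rw [Nat.coprime_comm] at this
    simpa [Int.gcd] using this
  obtain ⟨u, v, huv⟩ := hcop
  have h1 : ((u : K) * (a : K) + (v : K) * (ℓ : K)) = 1 := by exact_mod_cast congrArg (Int.cast : ℤ → K) huv
  apply one_notMem_nonunits A
  rw [← h1]
  exact add_mem (mul_mem_nonunits A (intCast_mem A u) h) (mul_mem_nonunits A (intCast_mem A v) hℓA)

open Classical in
/-- Key lemma: a valuation subring `A` of `K` containing a subring `R` integrally closed in `K`,
with residue characteristic `ℓ`, is contained in the localisation of `R` at `R ∩ 𝔪_A`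
(at least on algebraic elements). -/
theorem exists_mul_mem_of_mem_valuationSubring [CharZero K] (R : Subring K)
    [IsIntegrallyClosedIn R K] (A : ValuationSubring K) {ℓ : ℕ} (hℓ : ℓ.Prime)
    (hℓA : (ℓ : K) ∈ A.nonunits) {x : K} (hxA : x ∈ A) (hx : IsAlgebraic ℤ x) :
    ∃ s ∈ R, s ∉ A.nonunits ∧ x * s ∈ R := by
  obtain ⟨f, hf, hfx⟩ := exists_isPrimitive_aeval_eq_zero hx
  obtain ⟨i0, hi0⟩ := exists_not_dvd_coeff hf hℓ
  have hi0' : i0 ≤ f.natDegree := by
    by_contra hlt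
    rw [coeff_eq_zero_of_natDegree_lt (not_le.mp hlt)] at hi0
    exact hi0 (dvd_zero _)
  set r := Nat.findGreatest (fun i => ¬ (ℓ : ℤ) ∣ f.coeff i) f.natDegree with hr_def
  have hr : ¬ (ℓ : ℤ) ∣ f.coeff r := Nat.findGreatest_spec (P := fun i => ¬ (ℓ : ℤ) ∣ f.coeff i) hi0' hi0
  have hgt : ∀ i, r < i → (ℓ : ℤ) ∣ f.coeff i := by
    intro i hi
    by_cases hin : i ≤ f.natDegree
    · exact not_not.mp (Nat.findGreatest_is_greatest (P := fun i => ¬ (ℓ : ℤ) ∣ f.coeff i) hi hin)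
    · rw [coeff_eq_zero_of_natDegree_lt (not_le.mp hin)]
      exact dvd_zero _
  refine ⟨aeval x (divX^[r] f), aeval_divX_iterate_mem R f x hfx r, ?_,
    mul_aeval_divX_iterate_mem R f x hfx r⟩
  intro hs
  have h1 := aeval_divX x (divX^[r] f)
  rw [coeff_divX_iterate, zero_add, ← Function.iterate_succ_apply' divX r f] at h1
  have h2 : C (ℓ : ℤ) ∣ divX^[r + 1] f := by
    rw [C_dvd_iff_dvd_coeff]
    intro i
    rw [coeff_divX_iterate]
    exact hgt _ (by omega)
  obtain ⟨h, hh⟩ := h2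
  have h3 : aeval x (divX^[r + 1] f) * x ∈ A.nonunits := by
    rw [hh, map_mul, aeval_C, mul_assoc, mul_comm]
    have : (algebraMap ℤ K) (ℓ : ℤ) = (ℓ : K) := by simp
    rw [this]
    exact mul_mem_nonunits A (A.mul_mem _ _ (aeval_int_mem A hxA h) hxA) hℓA
  have h4 : ((f.coeff r : ℤ) : K) ∈ A.nonunits := by
    have : ((f.coeff r : ℤ) : K) = aeval x (divX^[r] f) - aeval x (divX^[r + 1] f) * x := by
      rw [h1]; ring
    rw [this]
    exact sub_mem hs h3
  exact intCast_notMem_nonunits A hℓ hℓA hr h4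

end Fermat.Agent.S54_helper86
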